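/-
S19 skeleton (helper107).  Route: origin/helper107:notes/S19_route_helper107.md
Interface between the ALGEBRA side (files `S19/Alg/*`, `S19/AlgMain`) and the GEOMETRY side (`S19/GeomMain`).
-/
import Fermat.Statements.S19

set_option autoImplicit false

namespace Fermat.Agent.S19

/-- The field `Qbar` of algebraic numbers. -/
abbrev Qbar : Type := AlgebraicClosure ℚ

/-- The absolute Galois group of `ℚ`. -/
abbrev GQ : Type := AlgebraicClosure ℚ ≃ₐ[ℚ] AlgebraicClosure ℚ

/-- The localisation `ℤ_(ℓ)` as a type. -/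
abbrev Zl (ℓ : ℕ) : Type := ↥(GaloisRep.ratLocalizedAt ℓ)

section

variable {J : Type} [AddCommGroup J] [DistribMulAction GQ J]

/-- `f : M → Qbar` is equivariant for the inertia group of `A`. -/
def InertiaEquivariant (M : Submodule ℤ J) (A : ValuationSubring Qbar) (f : M → Qbar) : Prop :=
  ∀ σ ∈ A.inertiaSubgroupIn ℚ, ∀ (x : M) (hx : σ • (x : J) ∈ M),
    f ⟨σ • (x : J), hx⟩ = σ (f x)

/-- The geometric core (GC) of the route, in elementary form: `N` is a set of functions `M → Qbar` which is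
a module over `Rur` (= the elements of `A` fixed by inertia), consists of inertia-equivariant `A`-valued
functions, spans all functions over `Qbar`, and is closed under the comultiplication
`f ↦ ((x, y) ↦ f (x + y))`. -/
structure CoalgLattice (M : Submodule ℤ J) (A : ValuationSubring Qbar)
    (N : Set (M → Qbar)) : Prop where
  equivariant : ∀ f ∈ N, InertiaEquivariant M A f
  integral : ∀ f ∈ N, ∀ x, f x ∈ A
  zero_mem : (0 : M → Qbar) ∈ N
  add_mem : ∀ f ∈ N, ∀ g ∈ N, f + g ∈ N
  smul_mem : ∀ a ∈ A, (∀ σ ∈ A.inertiaSubgroupIn ℚ, σ a = a) → ∀ f ∈ N, (fun x => a * f x) ∈ N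
  spanning : Submodule.span Qbar N = ⊤
  comul : ∀ f ∈ N, ∃ (n : ℕ) (g h : Fin n → M → Qbar), (∀ j, g j ∈ N) ∧ (∀ j, h j ∈ N) ∧
    ∀ x y : M, f (x + y) = ∑ j, g j x * h j y

/-- Every point of `M` is defined over a number field (the Galois action on `M` is continuous). -/
def DiscreteAction (M : Submodule ℤ J) : Prop :=
  ∀ x ∈ M, ∃ K : IntermediateField ℚ Qbar, FiniteDimensional ℚ K ∧
    ∀ σ : GQ, (∀ a ∈ K, σ a = a) → σ • x = x

end

end Fermat.Agent.S19
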