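/-
S19 (helper107): Theorem A (pure algebra / number theory of Qbar), assembled from the packages `Alg/*`.
The assembly below is complete; the open work is in the `Alg/*` files.
-/
import Fermat.Agent.S19.Alg.Full
import Fermat.Agent.S19.Alg.HBasis
import Fermat.Agent.S19.Alg.Comul
import Fermat.Agent.S19.Alg.FunHopf

set_option autoImplicit false

namespace Fermat.Agent.S19

/-- **Theorem A'** (abstract Galois module). -/
theorem exists_hopf_of_coalgLatticeOn (ℓ : ℕ) [Fact ℓ.Prime] (X : Type) [AddCommGroup X] [Finite X]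
    [DistribMulAction GQ X] (hdisc : DiscreteActionOn X)
    (A : ValuationSubring Qbar) (hA : A.LiesOverPrime ℓ)
    (N : Set (X → Qbar)) (hN : CoalgLatticeOn X A N) :
    ∃ (Hh : Type) (_ : CommRing Hh) (_ : HopfAlgebra (GaloisRep.ratLocalizedAt ℓ) Hh),
      Module.Finite (GaloisRep.ratLocalizedAt ℓ) Hh ∧ Module.Flat (GaloisRep.ratLocalizedAt ℓ) Hh ∧
      Coalgebra.IsCocomm (GaloisRep.ratLocalizedAt ℓ) Hh ∧
      ∃ e : WithConv (Hh →ₐ[GaloisRep.ratLocalizedAt ℓ] AlgebraicClosure ℚ) ≃ X,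
        (∀ f g, e (f * g) = e f + e g) ∧
        ∀ (σ : AlgebraicClosure ℚ ≃ₐ[ℚ] AlgebraicClosure ℚ)
          (f g : WithConv (Hh →ₐ[GaloisRep.ratLocalizedAt ℓ] AlgebraicClosure ℚ)),
          (∀ h : Hh, g h = σ (f h)) → e g = σ • e f := by
  obtain ⟨c, hc⟩ := exists_pow_smul_mem_hopfOrder ℓ X hdisc A hA N hN
  obtain ⟨b, hbH, hbL, hbR⟩ := exists_basis_hopfOrder ℓ X hdisc A hA c hc
  let H : Subalgebra (Zl ℓ) (X → Qbar) :=
    { carrier := hopfOrder X ℓ A
      mul_mem' := fun {f g} hf hg => mul_mem_hopfOrder ℓ X A hA hf hg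
      add_mem' := fun {f g} hf hg => (hopfOrder X ℓ A).add_mem hf hg
      algebraMap_mem' := fun r => by
        have h1 : algebraMap (Zl ℓ) (X → Qbar) r = r • (1 : X → Qbar) := by
          rw [Algebra.smul_def, mul_one]
        show algebraMap (Zl ℓ) (X → Qbar) r ∈ hopfOrder X ℓ A
        rw [h1]
        exact (hopfOrder X ℓ A).smul_mem r (one_mem_hopfOrder ℓ X A hA) }
  have hmem : ∀ f : X → Qbar, f ∈ H ↔ f ∈ hopfOrder X ℓ A := fun f => Iff.rfl
  refine exists_hopf_of_funOrder ℓ X H ?_ b hbH hbL hbR ?_ ?_ ?_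
  · intro f hf
    exact ((isOrderComodule_hopfOrder ℓ X A).1 f hf).1
  · intro f hf
    exact comulIn_hopfOrder_of_basis ℓ X A hA b hbH hbL hbR f hf
  · intro f hf
    exact apply_zero_mem_range ℓ X A hA hf
  · intro f hf
    exact comp_neg_mem_hopfOrder ℓ X A hA hf

/-- **Theorem A.**  A finite Galois-stable subgroup `M` of a Galois module with continuous action which carries
a `CoalgLattice` at one valuation ring over `ℓ` is the group of `Qbar`-points of a finite flat cocommutative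
Hopf algebra over `ℤ_(ℓ)`, Galois-equivariantly. -/
theorem exists_hopf_of_coalgLattice (ℓ : ℕ) [Fact ℓ.Prime]
    {J : Type} [AddCommGroup J] [DistribMulAction GQ J]
    (M : Submodule ℤ J) [Finite M] (hM : ∀ (σ : GQ), ∀ x ∈ M, σ • x ∈ M)
    (hdisc : DiscreteAction M)
    (A : ValuationSubring Qbar) (hA : A.LiesOverPrime ℓ)
    (N : Set (M → Qbar)) (hN : CoalgLattice M A N) :
    ∃ (H : Type) (_ : CommRing H) (_ : HopfAlgebra (GaloisRep.ratLocalizedAt ℓ) H),
      Module.Finite (GaloisRep.ratLocalizedAt ℓ) H ∧ Module.Flat (GaloisRep.ratLocalizedAt ℓ) H ∧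
      Coalgebra.IsCocomm (GaloisRep.ratLocalizedAt ℓ) H ∧
      ∃ e : WithConv (H →ₐ[GaloisRep.ratLocalizedAt ℓ] AlgebraicClosure ℚ) ≃ ↥M,
        (∀ f g, e (f * g) = e f + e g) ∧
        ∀ (σ : AlgebraicClosure ℚ ≃ₐ[ℚ] AlgebraicClosure ℚ)
          (f g : WithConv (H →ₐ[GaloisRep.ratLocalizedAt ℓ] AlgebraicClosure ℚ)),
          (∀ h : H, g h = σ (f h)) → ((e g : J)) = σ • (e f : J) := by
  letI act : DistribMulAction GQ M :=
    { smul := fun σ x => ⟨σ • (x : J), hM σ x x.2⟩
      one_smul := fun x => Subtype.ext (one_smul GQ (x : J))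
      mul_smul := fun σ τ x => Subtype.ext (mul_smul σ τ (x : J))
      smul_zero := fun σ => Subtype.ext (smul_zero σ)
      smul_add := fun σ x y => Subtype.ext (smul_add σ (x : J) (y : J)) }
  have hsmul : ∀ (σ : GQ) (x : M), ((σ • x : M) : J) = σ • (x : J) := fun σ x => rfl
  have hdisc' : DiscreteActionOn M := by
    intro x
    obtain ⟨K, hK, h⟩ := hdisc x x.2
    exact ⟨K, hK, fun σ hσ => Subtype.ext (h σ hσ)⟩
  have hN' : CoalgLatticeOn M A N :=
    { equivariant := fun f hf σ hσ x => hN.equivariant f hf σ hσ x (hM σ x x.2)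
      integral := hN.integral
      zero_mem := hN.zero_mem
      add_mem := hN.add_mem
      smul_mem := hN.smul_mem
      spanning := hN.spanning
      comul := hN.comul }
  obtain ⟨H, i1, i2, h1, h2, h3, e, he1, he2⟩ := exists_hopf_of_coalgLatticeOn ℓ M hdisc' A hA N hN'
  refine ⟨H, i1, i2, h1, h2, h3, e, he1, ?_⟩
  intro σ f g hfg
  rw [he2 σ f g hfg, hsmul]

end Fermat.Agent.S19
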