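/-
S19 (helper107): interface theorem G (geometry of X0(N) at a prime of good reduction), assembled from the
packages `Geom/*`.  The torsion count S27 enters as the hypothesis `h27` until S27 is landed.
-/
import Fermat.Agent.S19.Geom.Fin
import Fermat.Agent.S19.Geom.Disc
import Fermat.Agent.S19.Geom.Core

set_option autoImplicit false

open ModularCurve AlgebraicCurve

namespace Fermat.Agent.S19

/-- **Theorem G.**  For `ℓ ∤ N` the `ℓ^k`-torsion of `JZero N` is finite, has continuous Galois action and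
carries a `CoalgLattice` at some valuation ring of `Qbar` over `ℓ`. -/
theorem exists_coalgLattice_jZero
    (h27 : ∀ (K F : Type) [Field K] [Field F] [Algebra K F] [IsAlgClosed K] [CharZero K]
      [IsCurveOver K F] [Algebra.EssFiniteType K F] (ℓ : ℕ) [Fact ℓ.Prime] (k : ℕ),
      Nat.card (Pic0.torsion K F (ℓ ^ k)) = ℓ ^ (2 * genusFF K F * k))
    (p : ℕ) [NeZero p] (ℓ : ℕ) [Fact ℓ.Prime] (hℓp : ¬ ℓ ∣ p) (k : ℕ) :
    Finite ↥(Submodule.torsionBy ℤ (JZero p) ((ℓ : ℤ) ^ k)) ∧
    DiscreteAction (Submodule.torsionBy ℤ (JZero p) ((ℓ : ℤ) ^ k)) ∧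
    ∃ A : ValuationSubring Qbar, A.LiesOverPrime ℓ ∧
      ∃ N : Set (↥(Submodule.torsionBy ℤ (JZero p) ((ℓ : ℤ) ^ k)) → Qbar),
        CoalgLattice (Submodule.torsionBy ℤ (JZero p) ((ℓ : ℤ) ^ k)) A N := by
  have hfin := finite_torsion_jZero_of_S27 h27 p ℓ k
  exact ⟨hfin, fun x _ => exists_numberField_fixing_jZero p x,
    exists_coalgLattice_jZero_core p ℓ hℓp k hfin⟩

end Fermat.Agent.S19
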